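import Mathlib
import Fermat.Agent.S52.Fam.Defs

/-!
# S52 / Part B — homogenised family polynomials  (squad S52/S52, helper52)

Canonical family data = `Fermat.Agent.S52.Fam` (helper952, `Fam/Defs.lean`): `C4 C6 Fk` in `ℤ[c₄,c₆][τ]`.
Here: the homogenisations in `τ = m/n`,

  `C4h c₄ c₆ m n = n²⁰·C4 c₄ c₆ (m/n)`,  `C6h = n³⁰·C6(m/n)`,  `Fkh = n¹²·Fk(m/n)`,

as explicit polynomials over any commutative ring, with the basic bookkeeping lemmas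
(specialisation `n = 1`, homogeneity over a field, compatibility with ring homs, congruence
`C4h c₄ c₆ m n ≡ c₄·n²⁰ mod m`).  No `sorry`.
-/

set_option autoImplicit false
set_option linter.unusedSimpArgs false

namespace Fermat.Agent.S52.B

open Fermat.Agent.S52.Fam

variable {R : Type*} [CommRing R]

/-- `n²⁰·C4 c₄ c₆ (m/n)`. -/
def C4h (c₄ c₆ m n : R) : R :=
  C4_0 c₄ c₆ * n^20
  + C4_1 c₄ c₆ * m * n^19
  + C4_2 c₄ c₆ * m^2 * n^18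
  + C4_3 c₄ c₆ * m^3 * n^17
  + C4_4 c₄ c₆ * m^4 * n^16
  + C4_5 c₄ c₆ * m^5 * n^15
  + C4_6 c₄ c₆ * m^6 * n^14
  + C4_7 c₄ c₆ * m^7 * n^13
  + C4_8 c₄ c₆ * m^8 * n^12
  + C4_9 c₄ c₆ * m^9 * n^11
  + C4_10 c₄ c₆ * m^10 * n^10
  + C4_11 c₄ c₆ * m^11 * n^9
  + C4_12 c₄ c₆ * m^12 * n^8
  + C4_13 c₄ c₆ * m^13 * n^7
  + C4_14 c₄ c₆ * m^14 * n^6
  + C4_15 c₄ c₆ * m^15 * n^5
  + C4_16 c₄ c₆ * m^16 * n^4
  + C4_17 c₄ c₆ * m^17 * n^3
  + C4_18 c₄ c₆ * m^18 * n^2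
  + C4_19 c₄ c₆ * m^19 * n
  + C4_20 c₄ c₆ * m^20

/-- `n³⁰·C6 c₄ c₆ (m/n)`. -/
def C6h (c₄ c₆ m n : R) : R :=
  C6_0 c₄ c₆ * n^30
  + C6_1 c₄ c₆ * m * n^29
  + C6_2 c₄ c₆ * m^2 * n^28
  + C6_3 c₄ c₆ * m^3 * n^27
  + C6_4 c₄ c₆ * m^4 * n^26
  + C6_5 c₄ c₆ * m^5 * n^25
  + C6_6 c₄ c₆ * m^6 * n^24
  + C6_7 c₄ c₆ * m^7 * n^23
  + C6_8 c₄ c₆ * m^8 * n^22
  + C6_9 c₄ c₆ * m^9 * n^21
  + C6_10 c₄ c₆ * m^10 * n^20
  + C6_11 c₄ c₆ * m^11 * n^19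
  + C6_12 c₄ c₆ * m^12 * n^18
  + C6_13 c₄ c₆ * m^13 * n^17
  + C6_14 c₄ c₆ * m^14 * n^16
  + C6_15 c₄ c₆ * m^15 * n^15
  + C6_16 c₄ c₆ * m^16 * n^14
  + C6_17 c₄ c₆ * m^17 * n^13
  + C6_18 c₄ c₆ * m^18 * n^12
  + C6_19 c₄ c₆ * m^19 * n^11
  + C6_20 c₄ c₆ * m^20 * n^10
  + C6_21 c₄ c₆ * m^21 * n^9
  + C6_22 c₄ c₆ * m^22 * n^8
  + C6_23 c₄ c₆ * m^23 * n^7
  + C6_24 c₄ c₆ * m^24 * n^6
  + C6_25 c₄ c₆ * m^25 * n^5
  + C6_26 c₄ c₆ * m^26 * n^4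
  + C6_27 c₄ c₆ * m^27 * n^3
  + C6_28 c₄ c₆ * m^28 * n^2
  + C6_29 c₄ c₆ * m^29 * n
  + C6_30 c₄ c₆ * m^30

/-- `n¹²·Fk c₄ c₆ (m/n)`. -/
def Fkh (c₄ c₆ m n : R) : R :=
  Fk_0 c₄ c₆ * n^12
  + Fk_2 c₄ c₆ * m^2 * n^10
  + Fk_3 c₄ c₆ * m^3 * n^9
  + Fk_4 c₄ c₆ * m^4 * n^8
  + Fk_5 c₄ c₆ * m^5 * n^7
  + Fk_6 c₄ c₆ * m^6 * n^6
  + Fk_7 c₄ c₆ * m^7 * n^5
  + Fk_8 c₄ c₆ * m^8 * n^4
  + Fk_9 c₄ c₆ * m^9 * n^3
  + Fk_10 c₄ c₆ * m^10 * n^2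
  + Fk_11 c₄ c₆ * m^11 * n
  + Fk_12 c₄ c₆ * m^12

theorem C4h_one (c₄ c₆ τ : R) : C4h c₄ c₆ τ 1 = C4 c₄ c₆ τ := by
  simp only [C4h, C4, one_pow, mul_one]

theorem C6h_one (c₄ c₆ τ : R) : C6h c₄ c₆ τ 1 = C6 c₄ c₆ τ := by
  simp only [C6h, C6, one_pow, mul_one]

theorem Fkh_one (c₄ c₆ τ : R) : Fkh c₄ c₆ τ 1 = Fk c₄ c₆ τ := by
  simp only [Fkh, Fk, one_pow, mul_one]

theorem C4h_zero_left (c₄ c₆ n : R) : C4h c₄ c₆ 0 n = c₄ * n ^ 20 := by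
  simp only [C4h, C4_0]; ring

theorem C6h_zero_left (c₄ c₆ n : R) : C6h c₄ c₆ 0 n = c₆ * n ^ 30 := by
  simp only [C6h, C6_0]; ring

theorem Fkh_zero_left (c₄ c₆ n : R) : Fkh c₄ c₆ 0 n = n ^ 12 := by
  simp only [Fkh, Fk_0]; ring

/-- `C4h ≡ c₄·n²⁰ mod m`. -/
theorem C4h_sub_dvd (c₄ c₆ m n : R) : m ∣ C4h c₄ c₆ m n - c₄ * n ^ 20 :=
  ⟨C4_1 c₄ c₆ * n^19
    + C4_2 c₄ c₆ * m * n^18
    + C4_3 c₄ c₆ * m^2 * n^17
    + C4_4 c₄ c₆ * m^3 * n^16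
    + C4_5 c₄ c₆ * m^4 * n^15
    + C4_6 c₄ c₆ * m^5 * n^14
    + C4_7 c₄ c₆ * m^6 * n^13
    + C4_8 c₄ c₆ * m^7 * n^12
    + C4_9 c₄ c₆ * m^8 * n^11
    + C4_10 c₄ c₆ * m^9 * n^10
    + C4_11 c₄ c₆ * m^10 * n^9
    + C4_12 c₄ c₆ * m^11 * n^8
    + C4_13 c₄ c₆ * m^12 * n^7
    + C4_14 c₄ c₆ * m^13 * n^6
    + C4_15 c₄ c₆ * m^14 * n^5
    + C4_16 c₄ c₆ * m^15 * n^4
    + C4_17 c₄ c₆ * m^16 * n^3
    + C4_18 c₄ c₆ * m^17 * n^2
    + C4_19 c₄ c₆ * m^18 * n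
    + C4_20 c₄ c₆ * m^19,
    by simp only [C4h, C4_0]; ring⟩

/-- `C6h ≡ c₆·n³⁰ mod m`. -/
theorem C6h_sub_dvd (c₄ c₆ m n : R) : m ∣ C6h c₄ c₆ m n - c₆ * n ^ 30 :=
  ⟨C6_1 c₄ c₆ * n^29
    + C6_2 c₄ c₆ * m * n^28
    + C6_3 c₄ c₆ * m^2 * n^27
    + C6_4 c₄ c₆ * m^3 * n^26
    + C6_5 c₄ c₆ * m^4 * n^25
    + C6_6 c₄ c₆ * m^5 * n^24
    + C6_7 c₄ c₆ * m^6 * n^23
    + C6_8 c₄ c₆ * m^7 * n^22
    + C6_9 c₄ c₆ * m^8 * n^21
    + C6_10 c₄ c₆ * m^9 * n^20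
    + C6_11 c₄ c₆ * m^10 * n^19
    + C6_12 c₄ c₆ * m^11 * n^18
    + C6_13 c₄ c₆ * m^12 * n^17
    + C6_14 c₄ c₆ * m^13 * n^16
    + C6_15 c₄ c₆ * m^14 * n^15
    + C6_16 c₄ c₆ * m^15 * n^14
    + C6_17 c₄ c₆ * m^16 * n^13
    + C6_18 c₄ c₆ * m^17 * n^12
    + C6_19 c₄ c₆ * m^18 * n^11
    + C6_20 c₄ c₆ * m^19 * n^10
    + C6_21 c₄ c₆ * m^20 * n^9
    + C6_22 c₄ c₆ * m^21 * n^8
    + C6_23 c₄ c₆ * m^22 * n^7
    + C6_24 c₄ c₆ * m^23 * n^6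
    + C6_25 c₄ c₆ * m^24 * n^5
    + C6_26 c₄ c₆ * m^25 * n^4
    + C6_27 c₄ c₆ * m^26 * n^3
    + C6_28 c₄ c₆ * m^27 * n^2
    + C6_29 c₄ c₆ * m^28 * n
    + C6_30 c₄ c₆ * m^29,
    by simp only [C6h, C6_0]; ring⟩

/-- `Fkh ≡ n¹² mod m` (even mod `m²`, not needed). -/
theorem Fkh_sub_dvd (c₄ c₆ m n : R) : m ∣ Fkh c₄ c₆ m n - n ^ 12 :=
  ⟨Fk_2 c₄ c₆ * m * n^10
    + Fk_3 c₄ c₆ * m^2 * n^9
    + Fk_4 c₄ c₆ * m^3 * n^8
    + Fk_5 c₄ c₆ * m^4 * n^7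
    + Fk_6 c₄ c₆ * m^5 * n^6
    + Fk_7 c₄ c₆ * m^6 * n^5
    + Fk_8 c₄ c₆ * m^7 * n^4
    + Fk_9 c₄ c₆ * m^8 * n^3
    + Fk_10 c₄ c₆ * m^9 * n^2
    + Fk_11 c₄ c₆ * m^10 * n
    + Fk_12 c₄ c₆ * m^11,
    by simp only [Fkh, Fk_0]; ring⟩

section Field

variable {k : Type*} [Field k]

theorem C4h_eq_pow_mul (c₄ c₆ m : k) {n : k} (hn : n ≠ 0) :
    C4h c₄ c₆ m n = n ^ 20 * C4 c₄ c₆ (m / n) := by
  simp only [C4h, C4]; field_simp

theorem C6h_eq_pow_mul (c₄ c₆ m : k) {n : k} (hn : n ≠ 0) :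
    C6h c₄ c₆ m n = n ^ 30 * C6 c₄ c₆ (m / n) := by
  simp only [C6h, C6]; field_simp

theorem Fkh_eq_pow_mul (c₄ c₆ m : k) {n : k} (hn : n ≠ 0) :
    Fkh c₄ c₆ m n = n ^ 12 * Fk c₄ c₆ (m / n) := by
  simp only [Fkh, Fk]; field_simp

end Field

section Map

theorem map_C4_0 {S : Type*} [CommRing S] (f : R →+* S) (c₄ c₆ : R) :
    f (C4_0 c₄ c₆) = C4_0 (f c₄) (f c₆) := by
  simp only [C4_0, map_add, map_sub, map_mul, map_pow, map_neg, map_ofNat, map_one]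

theorem map_C4_1 {S : Type*} [CommRing S] (f : R →+* S) (c₄ c₆ : R) :
    f (C4_1 c₄ c₆) = C4_1 (f c₄) (f c₆) := by
  simp only [C4_1, map_add, map_sub, map_mul, map_pow, map_neg, map_ofNat, map_one]

theorem map_C4_2 {S : Type*} [CommRing S] (f : R →+* S) (c₄ c₆ : R) :
    f (C4_2 c₄ c₆) = C4_2 (f c₄) (f c₆) := by
  simp only [C4_2, map_add, map_sub, map_mul, map_pow, map_neg, map_ofNat, map_one]

theorem map_C4_3 {S : Type*} [CommRing S] (f : R →+* S) (c₄ c₆ : R) :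
    f (C4_3 c₄ c₆) = C4_3 (f c₄) (f c₆) := by
  simp only [C4_3, map_add, map_sub, map_mul, map_pow, map_neg, map_ofNat, map_one]

theorem map_C4_4 {S : Type*} [CommRing S] (f : R →+* S) (c₄ c₆ : R) :
    f (C4_4 c₄ c₆) = C4_4 (f c₄) (f c₆) := by
  simp only [C4_4, map_add, map_sub, map_mul, map_pow, map_neg, map_ofNat, map_one]

theorem map_C4_5 {S : Type*} [CommRing S] (f : R →+* S) (c₄ c₆ : R) :
    f (C4_5 c₄ c₆) = C4_5 (f c₄) (f c₆) := by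
  simp only [C4_5, map_add, map_sub, map_mul, map_pow, map_neg, map_ofNat, map_one]

theorem map_C4_6 {S : Type*} [CommRing S] (f : R →+* S) (c₄ c₆ : R) :
    f (C4_6 c₄ c₆) = C4_6 (f c₄) (f c₆) := by
  simp only [C4_6, map_add, map_sub, map_mul, map_pow, map_neg, map_ofNat, map_one]

theorem map_C4_7 {S : Type*} [CommRing S] (f : R →+* S) (c₄ c₆ : R) :
    f (C4_7 c₄ c₆) = C4_7 (f c₄) (f c₆) := by
  simp only [C4_7, map_add, map_sub, map_mul, map_pow, map_neg, map_ofNat, map_one]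

theorem map_C4_8 {S : Type*} [CommRing S] (f : R →+* S) (c₄ c₆ : R) :
    f (C4_8 c₄ c₆) = C4_8 (f c₄) (f c₆) := by
  simp only [C4_8, map_add, map_sub, map_mul, map_pow, map_neg, map_ofNat, map_one]

theorem map_C4_9 {S : Type*} [CommRing S] (f : R →+* S) (c₄ c₆ : R) :
    f (C4_9 c₄ c₆) = C4_9 (f c₄) (f c₆) := by
  simp only [C4_9, map_add, map_sub, map_mul, map_pow, map_neg, map_ofNat, map_one]

theorem map_C4_10 {S : Type*} [CommRing S] (f : R →+* S) (c₄ c₆ : R) :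
    f (C4_10 c₄ c₆) = C4_10 (f c₄) (f c₆) := by
  simp only [C4_10, map_add, map_sub, map_mul, map_pow, map_neg, map_ofNat, map_one]

theorem map_C4_11 {S : Type*} [CommRing S] (f : R →+* S) (c₄ c₆ : R) :
    f (C4_11 c₄ c₆) = C4_11 (f c₄) (f c₆) := by
  simp only [C4_11, map_add, map_sub, map_mul, map_pow, map_neg, map_ofNat, map_one]

theorem map_C4_12 {S : Type*} [CommRing S] (f : R →+* S) (c₄ c₆ : R) :
    f (C4_12 c₄ c₆) = C4_12 (f c₄) (f c₆) := by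
  simp only [C4_12, map_add, map_sub, map_mul, map_pow, map_neg, map_ofNat, map_one]

theorem map_C4_13 {S : Type*} [CommRing S] (f : R →+* S) (c₄ c₆ : R) :
    f (C4_13 c₄ c₆) = C4_13 (f c₄) (f c₆) := by
  simp only [C4_13, map_add, map_sub, map_mul, map_pow, map_neg, map_ofNat, map_one]

theorem map_C4_14 {S : Type*} [CommRing S] (f : R →+* S) (c₄ c₆ : R) :
    f (C4_14 c₄ c₆) = C4_14 (f c₄) (f c₆) := by
  simp only [C4_14, map_add, map_sub, map_mul, map_pow, map_neg, map_ofNat, map_one]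

theorem map_C4_15 {S : Type*} [CommRing S] (f : R →+* S) (c₄ c₆ : R) :
    f (C4_15 c₄ c₆) = C4_15 (f c₄) (f c₆) := by
  simp only [C4_15, map_add, map_sub, map_mul, map_pow, map_neg, map_ofNat, map_one]

theorem map_C4_16 {S : Type*} [CommRing S] (f : R →+* S) (c₄ c₆ : R) :
    f (C4_16 c₄ c₆) = C4_16 (f c₄) (f c₆) := by
  simp only [C4_16, map_add, map_sub, map_mul, map_pow, map_neg, map_ofNat, map_one]

theorem map_C4_17 {S : Type*} [CommRing S] (f : R →+* S) (c₄ c₆ : R) :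
    f (C4_17 c₄ c₆) = C4_17 (f c₄) (f c₆) := by
  simp only [C4_17, map_add, map_sub, map_mul, map_pow, map_neg, map_ofNat, map_one]

theorem map_C4_18 {S : Type*} [CommRing S] (f : R →+* S) (c₄ c₆ : R) :
    f (C4_18 c₄ c₆) = C4_18 (f c₄) (f c₆) := by
  simp only [C4_18, map_add, map_sub, map_mul, map_pow, map_neg, map_ofNat, map_one]

theorem map_C4_19 {S : Type*} [CommRing S] (f : R →+* S) (c₄ c₆ : R) :
    f (C4_19 c₄ c₆) = C4_19 (f c₄) (f c₆) := by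
  simp only [C4_19, map_add, map_sub, map_mul, map_pow, map_neg, map_ofNat, map_one]

theorem map_C4_20 {S : Type*} [CommRing S] (f : R →+* S) (c₄ c₆ : R) :
    f (C4_20 c₄ c₆) = C4_20 (f c₄) (f c₆) := by
  simp only [C4_20, map_add, map_sub, map_mul, map_pow, map_neg, map_ofNat, map_one]

theorem map_C6_0 {S : Type*} [CommRing S] (f : R →+* S) (c₄ c₆ : R) :
    f (C6_0 c₄ c₆) = C6_0 (f c₄) (f c₆) := by
  simp only [C6_0, map_add, map_sub, map_mul, map_pow, map_neg, map_ofNat, map_one]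

theorem map_C6_1 {S : Type*} [CommRing S] (f : R →+* S) (c₄ c₆ : R) :
    f (C6_1 c₄ c₆) = C6_1 (f c₄) (f c₆) := by
  simp only [C6_1, map_add, map_sub, map_mul, map_pow, map_neg, map_ofNat, map_one]

theorem map_C6_2 {S : Type*} [CommRing S] (f : R →+* S) (c₄ c₆ : R) :
    f (C6_2 c₄ c₆) = C6_2 (f c₄) (f c₆) := by
  simp only [C6_2, map_add, map_sub, map_mul, map_pow, map_neg, map_ofNat, map_one]

theorem map_C6_3 {S : Type*} [CommRing S] (f : R →+* S) (c₄ c₆ : R) :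
    f (C6_3 c₄ c₆) = C6_3 (f c₄) (f c₆) := by
  simp only [C6_3, map_add, map_sub, map_mul, map_pow, map_neg, map_ofNat, map_one]

theorem map_C6_4 {S : Type*} [CommRing S] (f : R →+* S) (c₄ c₆ : R) :
    f (C6_4 c₄ c₆) = C6_4 (f c₄) (f c₆) := by
  simp only [C6_4, map_add, map_sub, map_mul, map_pow, map_neg, map_ofNat, map_one]

theorem map_C6_5 {S : Type*} [CommRing S] (f : R →+* S) (c₄ c₆ : R) :
    f (C6_5 c₄ c₆) = C6_5 (f c₄) (f c₆) := by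
  simp only [C6_5, map_add, map_sub, map_mul, map_pow, map_neg, map_ofNat, map_one]

theorem map_C6_6 {S : Type*} [CommRing S] (f : R →+* S) (c₄ c₆ : R) :
    f (C6_6 c₄ c₆) = C6_6 (f c₄) (f c₆) := by
  simp only [C6_6, map_add, map_sub, map_mul, map_pow, map_neg, map_ofNat, map_one]

theorem map_C6_7 {S : Type*} [CommRing S] (f : R →+* S) (c₄ c₆ : R) :
    f (C6_7 c₄ c₆) = C6_7 (f c₄) (f c₆) := by
  simp only [C6_7, map_add, map_sub, map_mul, map_pow, map_neg, map_ofNat, map_one]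

theorem map_C6_8 {S : Type*} [CommRing S] (f : R →+* S) (c₄ c₆ : R) :
    f (C6_8 c₄ c₆) = C6_8 (f c₄) (f c₆) := by
  simp only [C6_8, map_add, map_sub, map_mul, map_pow, map_neg, map_ofNat, map_one]

theorem map_C6_9 {S : Type*} [CommRing S] (f : R →+* S) (c₄ c₆ : R) :
    f (C6_9 c₄ c₆) = C6_9 (f c₄) (f c₆) := by
  simp only [C6_9, map_add, map_sub, map_mul, map_pow, map_neg, map_ofNat, map_one]

theorem map_C6_10 {S : Type*} [CommRing S] (f : R →+* S) (c₄ c₆ : R) :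
    f (C6_10 c₄ c₆) = C6_10 (f c₄) (f c₆) := by
  simp only [C6_10, map_add, map_sub, map_mul, map_pow, map_neg, map_ofNat, map_one]

theorem map_C6_11 {S : Type*} [CommRing S] (f : R →+* S) (c₄ c₆ : R) :
    f (C6_11 c₄ c₆) = C6_11 (f c₄) (f c₆) := by
  simp only [C6_11, map_add, map_sub, map_mul, map_pow, map_neg, map_ofNat, map_one]

theorem map_C6_12 {S : Type*} [CommRing S] (f : R →+* S) (c₄ c₆ : R) :
    f (C6_12 c₄ c₆) = C6_12 (f c₄) (f c₆) := by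
  simp only [C6_12, map_add, map_sub, map_mul, map_pow, map_neg, map_ofNat, map_one]

theorem map_C6_13 {S : Type*} [CommRing S] (f : R →+* S) (c₄ c₆ : R) :
    f (C6_13 c₄ c₆) = C6_13 (f c₄) (f c₆) := by
  simp only [C6_13, map_add, map_sub, map_mul, map_pow, map_neg, map_ofNat, map_one]

theorem map_C6_14 {S : Type*} [CommRing S] (f : R →+* S) (c₄ c₆ : R) :
    f (C6_14 c₄ c₆) = C6_14 (f c₄) (f c₆) := by
  simp only [C6_14, map_add, map_sub, map_mul, map_pow, map_neg, map_ofNat, map_one]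

theorem map_C6_15 {S : Type*} [CommRing S] (f : R →+* S) (c₄ c₆ : R) :
    f (C6_15 c₄ c₆) = C6_15 (f c₄) (f c₆) := by
  simp only [C6_15, map_add, map_sub, map_mul, map_pow, map_neg, map_ofNat, map_one]

theorem map_C6_16 {S : Type*} [CommRing S] (f : R →+* S) (c₄ c₆ : R) :
    f (C6_16 c₄ c₆) = C6_16 (f c₄) (f c₆) := by
  simp only [C6_16, map_add, map_sub, map_mul, map_pow, map_neg, map_ofNat, map_one]

theorem map_C6_17 {S : Type*} [CommRing S] (f : R →+* S) (c₄ c₆ : R) :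
    f (C6_17 c₄ c₆) = C6_17 (f c₄) (f c₆) := by
  simp only [C6_17, map_add, map_sub, map_mul, map_pow, map_neg, map_ofNat, map_one]

theorem map_C6_18 {S : Type*} [CommRing S] (f : R →+* S) (c₄ c₆ : R) :
    f (C6_18 c₄ c₆) = C6_18 (f c₄) (f c₆) := by
  simp only [C6_18, map_add, map_sub, map_mul, map_pow, map_neg, map_ofNat, map_one]

theorem map_C6_19 {S : Type*} [CommRing S] (f : R →+* S) (c₄ c₆ : R) :
    f (C6_19 c₄ c₆) = C6_19 (f c₄) (f c₆) := by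
  simp only [C6_19, map_add, map_sub, map_mul, map_pow, map_neg, map_ofNat, map_one]

theorem map_C6_20 {S : Type*} [CommRing S] (f : R →+* S) (c₄ c₆ : R) :
    f (C6_20 c₄ c₆) = C6_20 (f c₄) (f c₆) := by
  simp only [C6_20, map_add, map_sub, map_mul, map_pow, map_neg, map_ofNat, map_one]

theorem map_C6_21 {S : Type*} [CommRing S] (f : R →+* S) (c₄ c₆ : R) :
    f (C6_21 c₄ c₆) = C6_21 (f c₄) (f c₆) := by
  simp only [C6_21, map_add, map_sub, map_mul, map_pow, map_neg, map_ofNat, map_one]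

theorem map_C6_22 {S : Type*} [CommRing S] (f : R →+* S) (c₄ c₆ : R) :
    f (C6_22 c₄ c₆) = C6_22 (f c₄) (f c₆) := by
  simp only [C6_22, map_add, map_sub, map_mul, map_pow, map_neg, map_ofNat, map_one]

theorem map_C6_23 {S : Type*} [CommRing S] (f : R →+* S) (c₄ c₆ : R) :
    f (C6_23 c₄ c₆) = C6_23 (f c₄) (f c₆) := by
  simp only [C6_23, map_add, map_sub, map_mul, map_pow, map_neg, map_ofNat, map_one]

theorem map_C6_24 {S : Type*} [CommRing S] (f : R →+* S) (c₄ c₆ : R) :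
    f (C6_24 c₄ c₆) = C6_24 (f c₄) (f c₆) := by
  simp only [C6_24, map_add, map_sub, map_mul, map_pow, map_neg, map_ofNat, map_one]

theorem map_C6_25 {S : Type*} [CommRing S] (f : R →+* S) (c₄ c₆ : R) :
    f (C6_25 c₄ c₆) = C6_25 (f c₄) (f c₆) := by
  simp only [C6_25, map_add, map_sub, map_mul, map_pow, map_neg, map_ofNat, map_one]

theorem map_C6_26 {S : Type*} [CommRing S] (f : R →+* S) (c₄ c₆ : R) :
    f (C6_26 c₄ c₆) = C6_26 (f c₄) (f c₆) := by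
  simp only [C6_26, map_add, map_sub, map_mul, map_pow, map_neg, map_ofNat, map_one]

theorem map_C6_27 {S : Type*} [CommRing S] (f : R →+* S) (c₄ c₆ : R) :
    f (C6_27 c₄ c₆) = C6_27 (f c₄) (f c₆) := by
  simp only [C6_27, map_add, map_sub, map_mul, map_pow, map_neg, map_ofNat, map_one]

theorem map_C6_28 {S : Type*} [CommRing S] (f : R →+* S) (c₄ c₆ : R) :
    f (C6_28 c₄ c₆) = C6_28 (f c₄) (f c₆) := by
  simp only [C6_28, map_add, map_sub, map_mul, map_pow, map_neg, map_ofNat, map_one]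

theorem map_C6_29 {S : Type*} [CommRing S] (f : R →+* S) (c₄ c₆ : R) :
    f (C6_29 c₄ c₆) = C6_29 (f c₄) (f c₆) := by
  simp only [C6_29, map_add, map_sub, map_mul, map_pow, map_neg, map_ofNat, map_one]

theorem map_C6_30 {S : Type*} [CommRing S] (f : R →+* S) (c₄ c₆ : R) :
    f (C6_30 c₄ c₆) = C6_30 (f c₄) (f c₆) := by
  simp only [C6_30, map_add, map_sub, map_mul, map_pow, map_neg, map_ofNat, map_one]

theorem map_Fk_0 {S : Type*} [CommRing S] (f : R →+* S) (c₄ c₆ : R) :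
    f (Fk_0 c₄ c₆) = Fk_0 (f c₄) (f c₆) := by
  simp only [Fk_0, map_add, map_sub, map_mul, map_pow, map_neg, map_ofNat, map_one]

theorem map_Fk_2 {S : Type*} [CommRing S] (f : R →+* S) (c₄ c₆ : R) :
    f (Fk_2 c₄ c₆) = Fk_2 (f c₄) (f c₆) := by
  simp only [Fk_2, map_add, map_sub, map_mul, map_pow, map_neg, map_ofNat, map_one]

theorem map_Fk_3 {S : Type*} [CommRing S] (f : R →+* S) (c₄ c₆ : R) :
    f (Fk_3 c₄ c₆) = Fk_3 (f c₄) (f c₆) := by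
  simp only [Fk_3, map_add, map_sub, map_mul, map_pow, map_neg, map_ofNat, map_one]

theorem map_Fk_4 {S : Type*} [CommRing S] (f : R →+* S) (c₄ c₆ : R) :
    f (Fk_4 c₄ c₆) = Fk_4 (f c₄) (f c₆) := by
  simp only [Fk_4, map_add, map_sub, map_mul, map_pow, map_neg, map_ofNat, map_one]

theorem map_Fk_5 {S : Type*} [CommRing S] (f : R →+* S) (c₄ c₆ : R) :
    f (Fk_5 c₄ c₆) = Fk_5 (f c₄) (f c₆) := by
  simp only [Fk_5, map_add, map_sub, map_mul, map_pow, map_neg, map_ofNat, map_one]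

theorem map_Fk_6 {S : Type*} [CommRing S] (f : R →+* S) (c₄ c₆ : R) :
    f (Fk_6 c₄ c₆) = Fk_6 (f c₄) (f c₆) := by
  simp only [Fk_6, map_add, map_sub, map_mul, map_pow, map_neg, map_ofNat, map_one]

theorem map_Fk_7 {S : Type*} [CommRing S] (f : R →+* S) (c₄ c₆ : R) :
    f (Fk_7 c₄ c₆) = Fk_7 (f c₄) (f c₆) := by
  simp only [Fk_7, map_add, map_sub, map_mul, map_pow, map_neg, map_ofNat, map_one]

theorem map_Fk_8 {S : Type*} [CommRing S] (f : R →+* S) (c₄ c₆ : R) :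
    f (Fk_8 c₄ c₆) = Fk_8 (f c₄) (f c₆) := by
  simp only [Fk_8, map_add, map_sub, map_mul, map_pow, map_neg, map_ofNat, map_one]

theorem map_Fk_9 {S : Type*} [CommRing S] (f : R →+* S) (c₄ c₆ : R) :
    f (Fk_9 c₄ c₆) = Fk_9 (f c₄) (f c₆) := by
  simp only [Fk_9, map_add, map_sub, map_mul, map_pow, map_neg, map_ofNat, map_one]

theorem map_Fk_10 {S : Type*} [CommRing S] (f : R →+* S) (c₄ c₆ : R) :
    f (Fk_10 c₄ c₆) = Fk_10 (f c₄) (f c₆) := by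
  simp only [Fk_10, map_add, map_sub, map_mul, map_pow, map_neg, map_ofNat, map_one]

theorem map_Fk_11 {S : Type*} [CommRing S] (f : R →+* S) (c₄ c₆ : R) :
    f (Fk_11 c₄ c₆) = Fk_11 (f c₄) (f c₆) := by
  simp only [Fk_11, map_add, map_sub, map_mul, map_pow, map_neg, map_ofNat, map_one]

theorem map_Fk_12 {S : Type*} [CommRing S] (f : R →+* S) (c₄ c₆ : R) :
    f (Fk_12 c₄ c₆) = Fk_12 (f c₄) (f c₆) := by
  simp only [Fk_12, map_add, map_sub, map_mul, map_pow, map_neg, map_ofNat, map_one]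


theorem map_C4h {S : Type*} [CommRing S] (f : R →+* S) (c₄ c₆ m n : R) :
    f (C4h c₄ c₆ m n) = C4h (f c₄) (f c₆) (f m) (f n) := by
  simp only [C4h, map_add, map_mul, map_pow, map_C4_0, map_C4_1, map_C4_2, map_C4_3, map_C4_4, map_C4_5, map_C4_6, map_C4_7, map_C4_8, map_C4_9, map_C4_10, map_C4_11, map_C4_12, map_C4_13, map_C4_14, map_C4_15, map_C4_16, map_C4_17, map_C4_18, map_C4_19, map_C4_20]

theorem map_C6h {S : Type*} [CommRing S] (f : R →+* S) (c₄ c₆ m n : R) :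
    f (C6h c₄ c₆ m n) = C6h (f c₄) (f c₆) (f m) (f n) := by
  simp only [C6h, map_add, map_mul, map_pow, map_C6_0, map_C6_1, map_C6_2, map_C6_3, map_C6_4, map_C6_5, map_C6_6, map_C6_7, map_C6_8, map_C6_9, map_C6_10, map_C6_11, map_C6_12, map_C6_13, map_C6_14, map_C6_15, map_C6_16, map_C6_17, map_C6_18, map_C6_19, map_C6_20, map_C6_21, map_C6_22, map_C6_23, map_C6_24, map_C6_25, map_C6_26, map_C6_27, map_C6_28, map_C6_29, map_C6_30]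

theorem map_Fkh {S : Type*} [CommRing S] (f : R →+* S) (c₄ c₆ m n : R) :
    f (Fkh c₄ c₆ m n) = Fkh (f c₄) (f c₆) (f m) (f n) := by
  simp only [Fkh, map_add, map_mul, map_pow, map_Fk_0, map_Fk_2, map_Fk_3, map_Fk_4, map_Fk_5, map_Fk_6, map_Fk_7, map_Fk_8, map_Fk_9, map_Fk_10, map_Fk_11, map_Fk_12]

theorem map_C4 {S : Type*} [CommRing S] (f : R →+* S) (c₄ c₆ τ : R) :
    f (C4 c₄ c₆ τ) = C4 (f c₄) (f c₆) (f τ) := by
  rw [← C4h_one, ← C4h_one, map_C4h, map_one]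

theorem map_C6 {S : Type*} [CommRing S] (f : R →+* S) (c₄ c₆ τ : R) :
    f (C6 c₄ c₆ τ) = C6 (f c₄) (f c₆) (f τ) := by
  rw [← C6h_one, ← C6h_one, map_C6h, map_one]

theorem map_Fk {S : Type*} [CommRing S] (f : R →+* S) (c₄ c₆ τ : R) :
    f (Fk c₄ c₆ τ) = Fk (f c₄) (f c₆) (f τ) := by
  rw [← Fkh_one, ← Fkh_one, map_Fkh, map_one]

end Map

end Fermat.Agent.S52.B
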