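import Fermat.Agent.S52.Top
import Fermat.Agent.S52.B.Hom

/-!
# S52 / Part B — FROZEN B-LEVEL INTERFACES  (squad S52/S52, helper52 = deputy row-lead)

`Switch ⇐ IntegralModel ∧ FamilyHIT ∧ TorsionMap`   (`switch_of_parts`, proved here, no `sorry`).

Family data: `Fermat.Agent.S52.Fam` (helper952) + homogenisations `C4h C6h Fkh` (`B/Hom.lean`).
For an integral model `W` with invariants `(c₄, c₆)` and integers `M`, `n` the new curve `W'` has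
`c₄(W') = C4h c₄ c₆ M n = n²⁰·C4(M/n)`, `c₆(W') = C6h c₄ c₆ M n`, `Δ(W') = Δ(W)·Fkh(M,n)⁵`.

* `IntegralModel` (piece **B2**): choice of the modulus `M` (divisible by `6`, by the bad primes and
  by an auxiliary good prime `p₀ ≥ 7`) and, for every `n ≡ 1 mod M`, of a semistable integral model
  `W'` with the prescribed invariants and `W' ≡ W` modulo every prime dividing `M`.
* `FamilyHIT` (piece **B3**, squad S52/S60): for every `M ≥ 2` some `n ≡ 1 mod M` such that every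
  integral model with invariants `(C4h.., C6h..)` has irreducible mod-3 representation.
* `TorsionMap` (piece **B1**): in the situation produced by `IntegralModel`, `W[5] ≅ W'[5]`
  (injective additive Galois-equivariant map).  The auxiliary prime `p₀ ∣ M` (good for `W`, with
  `W' ≡ W mod p₀`) is there so that additivity may be proved EITHER by rigidity over the function
  field `ℚ̄(τ)` OR by reduction modulo a place over `p₀` (`θ(P) ≡ P`, injectivity of reduction on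
  5-torsion); owners may ignore the hypotheses they do not need.
-/

set_option autoImplicit false

open WeierstrassCurve

namespace Fermat.Agent.S52.B

open Fermat.Agent.S52.Fam

/-- **Piece B2** (frozen). -/
def IntegralModel : Prop :=
  ∀ (W : WeierstrassCurve ℤ), W.Δ ≠ 0 → W.IsSemistableModel →
    ∃ (M : ℤ) (p₀ : ℕ), 0 < M ∧ (6 : ℤ) ∣ M ∧ p₀.Prime ∧ 7 ≤ p₀ ∧ ¬ (p₀ : ℤ) ∣ W.Δ ∧ (p₀ : ℤ) ∣ M ∧
      ∀ n : ℤ, n ≡ 1 [ZMOD M] →
        ∃ W' : WeierstrassCurve ℤ,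
          W'.c₄ = C4h W.c₄ W.c₆ M n ∧ W'.c₆ = C6h W.c₄ W.c₆ M n ∧
          W'.Δ ≠ 0 ∧ W'.IsSemistableModel ∧
          ∀ ℓ : ℕ, (ℓ : ℤ) ∣ M → W'.reductionMod ℓ = W.reductionMod ℓ

/-- **Piece B3** (frozen; hypotheses `hW`, `h3` may be ignored by the owner). -/
def FamilyHIT : Prop :=
  ∀ (W : WeierstrassCurve ℤ), W.Δ ≠ 0 → W.IsSemistableModel → ¬ W.ModRepIsIrreducible 3 →
    ∀ M : ℤ, 2 ≤ M → ∃ n : ℤ, n ≡ 1 [ZMOD M] ∧
      ∀ W' : WeierstrassCurve ℤ, W'.Δ ≠ 0 →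
        W'.c₄ = C4h W.c₄ W.c₆ M n → W'.c₆ = C6h W.c₄ W.c₆ M n →
        W'.ModRepIsIrreducible 3

/-- **Piece B1** (frozen). -/
def TorsionMap : Prop :=
  ∀ (W W' : WeierstrassCurve ℤ) (M n : ℤ) (p₀ : ℕ), W.Δ ≠ 0 → W'.Δ ≠ 0 →
    0 < M → n ≡ 1 [ZMOD M] →
    p₀.Prime → 7 ≤ p₀ → ¬ (p₀ : ℤ) ∣ W.Δ → (p₀ : ℤ) ∣ M →
    W'.reductionMod p₀ = W.reductionMod p₀ →
    W'.c₄ = C4h W.c₄ W.c₆ M n → W'.c₆ = C6h W.c₄ W.c₆ M n →
    FiveCongruent W W'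

/-- `Switch ⇐ B2 ∧ B3 ∧ B1`. -/
theorem switch_of_parts (hB2 : IntegralModel) (hB3 : FamilyHIT) (hB1 : TorsionMap) : Switch := by
  intro W hΔ hW _h5 h3
  obtain ⟨M, p₀, hM0, hM6, hp₀, hp₀7, hp₀Δ, hp₀M, hmod⟩ := hB2 W hΔ hW
  have hM2 : 2 ≤ M := by
    obtain ⟨k, hk⟩ := hM6
    omega
  obtain ⟨n, hn, hirr⟩ := hB3 W hΔ hW h3 M hM2
  obtain ⟨W', hc4, hc6, hΔ', hss, hred⟩ := hmod n hn
  have h2M : ((2 : ℕ) : ℤ) ∣ M := Dvd.dvd.trans (by norm_num) hM6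
  have h3M : ((3 : ℕ) : ℤ) ∣ M := Dvd.dvd.trans (by norm_num) hM6
  exact ⟨W', hΔ', hss, hirr W' hΔ' hc4 hc6, hred 2 h2M, hred 3 h3M,
    hB1 W W' M n p₀ hΔ hΔ' hM0 hn hp₀ hp₀7 hp₀Δ hp₀M (hred p₀ hp₀M) hc4 hc6⟩

end Fermat.Agent.S52.B
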